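import Mathlib

/-! # CRUX / (S1) : the core lemma (normality from the trace dual basis)

`𝔬` a PID, `𝔎` its fraction field, `E` a finite dimensional commutative `𝔎`-algebra, `c` a `𝔎`-basis of `E`
consisting of elements integral over `𝔬`, `cd` its trace dual family.  If `e = ∏ p_a` is a product of pairwise
coprime primes such that every `e • cd j` lies in `C = ∑ 𝔬 c_i` and is nilpotent modulo every `p_a C`, then every
element of `E` which is integral over `𝔬` lies in `C`.
-/

set_option autoImplicit false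

namespace Fermat.Agent.Crux.S1

open Module

variable {𝔬 𝔎 E : Type*} [CommRing 𝔬] [IsDomain 𝔬] [IsPrincipalIdealRing 𝔬] [Field 𝔎] [Algebra 𝔬 𝔎]
  [IsFractionRing 𝔬 𝔎] [CommRing E] [Algebra 𝔎 E] [Algebra 𝔬 E] [IsScalarTower 𝔬 𝔎 E]

omit [IsDomain 𝔬] [IsPrincipalIdealRing 𝔬] in
theorem extendOfIsLattice_repr {κ : Type*} [Fintype κ] {M : Submodule 𝔬 E} [Submodule.IsLattice 𝔎 M]
    (b : Basis κ 𝔬 M) (w : M) (i : κ) :
    (b.extendOfIsLattice 𝔎).repr (w : E) i = algebraMap 𝔬 𝔎 (b.repr w i) := by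
  have h : (w : E) = ∑ i, algebraMap 𝔬 𝔎 (b.repr w i) • b.extendOfIsLattice 𝔎 i := by
    conv_lhs => rw [← b.sum_repr w]
    rw [Submodule.coe_sum]
    refine Finset.sum_congr rfl fun i _ => ?_
    rw [Basis.extendOfIsLattice_apply, algebraMap_smul, Submodule.coe_smul]
  rw [h, Basis.repr_sum_self]

/-- The trace of an element stabilising a lattice `M` is in `𝔬`; it is divisible by the prime `p` if moreover a power
of the element maps `M` into `p M`. -/
theorem exists_trace_eq_of_isLattice (M : Submodule 𝔬 E) [Submodule.IsLattice 𝔎 M] (y : E)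
    (hy : ∀ w ∈ M, y * w ∈ M) :
    ∃ t : 𝔬, Algebra.trace 𝔎 E y = algebraMap 𝔬 𝔎 t ∧
      ∀ p : 𝔬, Prime p → (∃ N : ℕ, ∀ w ∈ M, ∃ w' ∈ M, y ^ N * w = p • w') → p ∣ t := by
  classical
  have : Module.IsTorsionFree 𝔬 𝔎 := by
    rw [Module.isTorsionFree_iff_algebraMap_injective]
    exact IsFractionRing.injective 𝔬 𝔎
  let b := Module.Free.chooseBasis 𝔬 M
  let bK := b.extendOfIsLattice 𝔎
  let f : M →ₗ[𝔬] M := (LinearMap.mulLeft 𝔬 y).restrict hy
  have hf : ∀ (n : ℕ) (w : M), (((f ^ n) w : M) : E) = y ^ n * w := by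
    intro n
    induction n with
    | zero => intro w; simp
    | succ n ih =>
      intro w
      rw [pow_succ', Module.End.mul_apply]
      show y * (((f ^ n) w : M) : E) = _
      rw [ih, pow_succ']; ring
  set Y : Matrix _ _ 𝔬 := LinearMap.toMatrix b b f with hYdef
  have hY : Algebra.leftMulMatrix bK y = Y.map (algebraMap 𝔬 𝔎) := by
    ext i j
    rw [Algebra.leftMulMatrix_eq_repr_mul, Matrix.map_apply, hYdef, LinearMap.toMatrix_apply]
    have h1 : y * bK j = ((f (b j) : M) : E) := by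
      show y * b.extendOfIsLattice 𝔎 j = y * ((b j : M) : E)
      rw [Basis.extendOfIsLattice_apply]
    rw [h1]
    exact extendOfIsLattice_repr b _ i
  refine ⟨Y.trace, ?_, ?_⟩
  · rw [Algebra.trace_eq_matrix_trace bK, hY]
    exact (AddMonoidHom.map_trace (algebraMap 𝔬 𝔎 : 𝔬 →+* 𝔎).toAddMonoidHom Y).symm
  · rintro p hp ⟨N, hN⟩
    have hprime : (Ideal.span {p}).IsPrime := (Ideal.span_singleton_prime hp.ne_zero).mpr hp
    let φ : 𝔬 →+* 𝔬 ⧸ Ideal.span {p} := Ideal.Quotient.mk _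
    have hYN : (Y.map φ) ^ N = 0 := by
      have h1 : (Y.map φ) ^ N = (Y ^ N).map φ := by
        rw [← RingHom.mapMatrix_apply, ← RingHom.mapMatrix_apply, map_pow]
      rw [h1]
      ext i j
      rw [Matrix.map_apply, Matrix.zero_apply, hYdef, LinearMap.toMatrix_pow, LinearMap.toMatrix_apply]
      obtain ⟨w', hw', hww'⟩ := hN (b j) (b j).2
      have h2 : (f ^ N) (b j) = p • (⟨w', hw'⟩ : M) := by
        apply Subtype.ext
        rw [hf, hww']; rfl
      rw [h2, map_smul, Finsupp.smul_apply, smul_eq_mul]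
      show Ideal.Quotient.mk _ _ = 0
      rw [Ideal.Quotient.eq_zero_iff_mem]
      exact Ideal.mul_mem_right _ _ (Ideal.mem_span_singleton_self p)
    have hnil : IsNilpotent (Y.map φ).trace := Matrix.isNilpotent_trace_of_isNilpotent ⟨N, hYN⟩
    have h0 : (Y.map φ).trace = 0 := hnil.eq_zero
    have h3 : φ Y.trace = 0 := by
      rw [← h0]
      exact AddMonoidHom.map_trace φ.toAddMonoidHom Y
    rw [← Ideal.mem_span_singleton]
    exact Ideal.Quotient.eq_zero_iff_mem.mp h3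

/-- **(S1), core.** -/
theorem mem_span_of_isIntegral {ι σ : Type*} [Fintype ι] [DecidableEq ι] (c : Basis ι 𝔎 E) (cd : ι → E)
    (hdual : ∀ i j, Algebra.trace 𝔎 E (c i * cd j) = if i = j then 1 else 0)
    (hc : ∀ i, IsIntegral 𝔬 (c i))
    (s : Finset σ) (p : σ → 𝔬) (hp : ∀ a ∈ s, Prime (p a))
    (hcop : (s : Set σ).Pairwise (fun a b => IsCoprime (p a) (p b)))
    (hmem : ∀ j, (∏ a ∈ s, p a) • cd j ∈ Submodule.span 𝔬 (Set.range c))
    (hnil : ∀ a ∈ s, ∀ j, ∃ N : ℕ, ∃ w ∈ Submodule.span 𝔬 (Set.range c),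
      ((∏ a ∈ s, p a) • cd j) ^ N = p a • w)
    (h : E) (hh : IsIntegral 𝔬 h) : h ∈ Submodule.span 𝔬 (Set.range c) := by
  classical
  set e : 𝔬 := ∏ a ∈ s, p a with he
  have he0 : e ≠ 0 := Finset.prod_ne_zero_iff.mpr fun a ha => (hp a ha).ne_zero
  -- the lattice `C' = 𝔬[c_i, h]`
  let C'a : Subalgebra 𝔬 E := Algebra.adjoin 𝔬 (Set.range c ∪ {h})
  let C' : Submodule 𝔬 E := Subalgebra.toSubmodule C'a
  have hcC' : ∀ i, c i ∈ C'a := fun i => Algebra.subset_adjoin (Or.inl ⟨i, rfl⟩)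
  have hhC' : h ∈ C'a := Algebra.subset_adjoin (Or.inr rfl)
  have hle : Submodule.span 𝔬 (Set.range c) ≤ C' := by
    rw [Submodule.span_le]
    rintro _ ⟨i, rfl⟩
    exact hcC' i
  have hlat : Submodule.IsLattice 𝔎 C' :=
    { fg := by
        apply fg_adjoin_of_finite ((Set.finite_range c).union (Set.finite_singleton h))
        rintro x (⟨i, rfl⟩ | rfl)
        · exact hc i
        · exact hh
      span_eq_top := by
        rw [eq_top_iff, ← c.span_eq]
        apply Submodule.span_mono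
        rintro _ ⟨i, rfl⟩
        exact hcC' i }
  -- the coordinates of `h`
  have hcoord : ∀ j, Algebra.trace 𝔎 E (h * cd j) = c.repr h j := by
    intro j
    conv_lhs => rw [← c.sum_repr h]
    rw [Finset.sum_mul, map_sum]
    simp_rw [smul_mul_assoc, map_smul, hdual, smul_eq_mul, mul_ite, mul_one, mul_zero]
    rw [Finset.sum_ite_eq' Finset.univ j]
    simp
  have key : ∀ j, ∃ t' : 𝔬, c.repr h j = algebraMap 𝔬 𝔎 t' := by
    intro j
    set u : E := e • cd j with hu
    have huC' : u ∈ C'a := hle (hmem j)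
    obtain ⟨t, ht, hdiv⟩ := exists_trace_eq_of_isLattice (𝔎 := 𝔎) C' (h * u)
      (fun w hw => C'a.mul_mem (C'a.mul_mem hhC' huC') hw)
    have hedvd : e ∣ t := by
      apply Finset.prod_dvd_of_coprime hcop
      intro a ha
      apply hdiv (p a) (hp a ha)
      obtain ⟨N, w, hw, hN⟩ := hnil a ha j
      refine ⟨N, fun w₁ hw₁ => ⟨h ^ N * w * w₁, ?_, ?_⟩⟩
      · exact C'a.mul_mem (C'a.mul_mem (C'a.pow_mem hhC' N) (hle hw)) hw₁
      · rw [mul_pow, hN]
        simp only [Algebra.smul_def]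
        ring
    obtain ⟨t', rfl⟩ := hedvd
    refine ⟨t', ?_⟩
    rw [← hcoord j]
    have h1 : h * u = algebraMap 𝔬 𝔎 e • (h * cd j) := by
      rw [hu, algebraMap_smul, mul_smul_comm]
    rw [h1, map_smul, smul_eq_mul, (algebraMap 𝔬 𝔎).map_mul] at ht
    have he0' : algebraMap 𝔬 𝔎 e ≠ 0 := by
      simpa using (IsFractionRing.injective 𝔬 𝔎).ne he0
    exact mul_left_cancel₀ he0' ht
  choose t' ht' using key
  rw [← c.sum_repr h]
  refine Submodule.sum_mem _ fun j _ => ?_
  rw [ht' j, algebraMap_smul]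
  exact Submodule.smul_mem _ _ (Submodule.subset_span ⟨j, rfl⟩)

end Fermat.Agent.Crux.S1
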