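import Mathlib

/-! # CRUX / (S1) : traces and nilpotents in characteristic zero

* `isNilpotent_of_forall_trace_mul_eq_zero` : in a finite dimensional commutative algebra over a field of
  characteristic zero the radical of the trace form consists of nilpotent elements.
* `mem_radical_map_of_intTrace_mem` : `B/A` Dedekind, `p` a maximal ideal of `A` with residue characteristic zero;
  if `Tr(z B) ⊆ p` then `z ∈ rad(pB)`.
-/

set_option autoImplicit false

namespace Fermat.Agent.Crux.S1

open Polynomial

theorem isNilpotent_of_forall_trace_mul_eq_zero {κ R : Type*} [Field κ] [CharZero κ] [CommRing R]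
    [Algebra κ R] [FiniteDimensional κ R] (z : R) (h : ∀ w : R, Algebra.trace κ R (z * w) = 0) :
    IsNilpotent z := by
  classical
  have hint : IsIntegral κ z := Algebra.IsIntegral.isIntegral z
  set q : κ[X] := X * minpoly κ z with hq
  have hq0 : q ≠ 0 := mul_ne_zero X_ne_zero (minpoly.ne_zero hint)
  have hqz : aeval z q = 0 := by rw [hq, map_mul, minpoly.aeval, mul_zero]
  obtain ⟨ν, hν, hνX⟩ := exists_eq_pow_rootMultiplicity_mul_and_not_dvd q hq0 0
  rw [C_0, sub_zero] at hν hνX
  set a := rootMultiplicity 0 q with ha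
  have ha1 : 1 ≤ a := by
    rw [ha, Nat.succ_le_iff, rootMultiplicity_pos hq0]
    simp [hq]
  have hcop : IsCoprime (X ^ a : κ[X]) ν :=
    IsCoprime.pow_left ((irreducible_X.coprime_iff_not_dvd).2 hνX)
  obtain ⟨α, β, hαβ⟩ := hcop
  have h1 : aeval z α * z ^ a + aeval z β * aeval z ν = 1 := by
    have := congrArg (aeval z) hαβ
    simpa using this
  have hzν : z ^ a * aeval z ν = 0 := by
    have := hqz
    rw [hν] at this
    simpa using this
  set ε : R := aeval z α * z ^ a with hε
  have hidem : ε * ε = ε := by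
    have : ε * (1 - ε) = 0 := by
      rw [← h1, add_sub_cancel_left, hε]
      calc aeval z α * z ^ a * (aeval z β * aeval z ν)
          = aeval z α * aeval z β * (z ^ a * aeval z ν) := by ring
        _ = 0 := by rw [hzν, mul_zero]
    linear_combination -this
  have htr : Algebra.trace κ R ε = 0 := by
    have : ε = z * (aeval z α * z ^ (a - 1)) := by
      rw [hε]
      obtain ⟨b, hb⟩ : ∃ b, a = b + 1 := ⟨a - 1, by omega⟩
      rw [hb, Nat.add_sub_cancel, pow_succ]; ring
    rw [this]; exact h _
  have hidem' : IsIdempotentElem (Algebra.lmul κ R ε) := by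
    show Algebra.lmul κ R ε * Algebra.lmul κ R ε = Algebra.lmul κ R ε
    rw [← map_mul, hidem]
  have hproj := LinearMap.IsIdempotentElem.isProj_range _ hidem'
  have htr2 := hproj.trace
  rw [← Algebra.trace_apply, htr] at htr2
  have hfr : Module.finrank κ (LinearMap.range (Algebra.lmul κ R ε)) = 0 := by
    exact_mod_cast htr2.symm
  have hbot : LinearMap.range (Algebra.lmul κ R ε) = ⊥ := Submodule.finrank_eq_zero.mp hfr
  have hε0 : ε = 0 := by
    have : ε ∈ LinearMap.range (Algebra.lmul κ R ε) := ⟨1, by simp⟩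
    rw [hbot] at this
    simpa using this
  refine ⟨a, ?_⟩
  rw [hε0, zero_add] at h1
  calc z ^ a = z ^ a * (aeval z β * aeval z ν) := by rw [h1, mul_one]
    _ = aeval z β * (z ^ a * aeval z ν) := by ring
    _ = 0 := by rw [hzν, mul_zero]

attribute [local instance] Ideal.Quotient.field in
theorem mem_radical_map_of_intTrace_mem {A B : Type*} [CommRing A] [IsDedekindDomain A] [CommRing B]
    [IsDomain B] [Algebra A B] [Module.IsTorsionFree A B] [Module.Finite A B] [IsIntegrallyClosed B]
    (p : Ideal A) [p.IsMaximal] [CharZero (A ⧸ p)] (z : B)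
    (h : ∀ β : B, Algebra.intTrace A B (z * β) ∈ p) : z ∈ (p.map (algebraMap A B)).radical := by
  have hfin : Module.Finite (A ⧸ p) (B ⧸ p.map (algebraMap A B)) :=
    Module.Finite.of_restrictScalars_finite A (A ⧸ p) (B ⧸ p.map (algebraMap A B))
  have hnil : IsNilpotent (Ideal.Quotient.mk (p.map (algebraMap A B)) z) := by
    apply isNilpotent_of_forall_trace_mul_eq_zero (κ := A ⧸ p)
    intro w
    obtain ⟨β, rfl⟩ := Ideal.Quotient.mk_surjective w
    rw [← map_mul, Algebra.trace_quotient_eq_of_isDedekindDomain, Ideal.Quotient.eq_zero_iff_mem]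
    exact h β
  obtain ⟨N, hN⟩ := hnil
  refine ⟨N, ?_⟩
  rwa [← map_pow, Ideal.Quotient.eq_zero_iff_mem] at hN

end Fermat.Agent.Crux.S1
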