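import Fermat.Agent.Crux.S1.NilTrace

/-! # CRUX / (S1) : the trace dual of a Dedekind extension in residue characteristic zero

AKLB set-up, `A` a PID all of whose residue fields have characteristic zero.  If `e ∈ A` is such that `pB` is a
radical ideal for every maximal ideal `p ∌ e` ("unramified outside `e`"), then for every `y` in the trace dual of
`B` the element `e y` lies in `B`, and in `rad(pB)` for every maximal ideal `p ∋ e`.

(No different ideal, no factorisation: only "`B_P` is a valuation ring" and "the radical of the trace form is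
the nilradical in characteristic zero".) -/

set_option autoImplicit false

namespace Fermat.Agent.Crux.S1

open IsDedekindDomain

variable {A K L B : Type*} [CommRing A] [CommRing B] [Algebra A B] [Field K] [Field L]
  [Algebra A K] [IsFractionRing A K] [Algebra K L] [Algebra A L] [IsScalarTower A K L]
  [Algebra B L] [IsScalarTower A B L] [IsIntegralClosure B A L] [FiniteDimensional K L]
  [IsDedekindDomain A] [IsDedekindDomain B] [Module.Finite A B] [Module.IsTorsionFree A B]

/-- `Tr(z B) ⊆ p` for `z ∈ B` implies `z ∈ rad(pB)`, trace of the fraction fields. -/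
theorem mem_radical_map_of_trace_mem (p : Ideal A) [p.IsMaximal] [CharZero (A ⧸ p)] (z : B)
    (hz : ∀ β : B, ∃ a ∈ p, algebraMap A K a = Algebra.trace K L (algebraMap B L z * algebraMap B L β)) :
    z ∈ (p.map (algebraMap A B)).radical := by
  apply mem_radical_map_of_intTrace_mem p z
  intro β
  obtain ⟨a, ha, hab⟩ := hz β
  have h1 : algebraMap A K (Algebra.intTrace A B (z * β)) = algebraMap A K a := by
    rw [Algebra.algebraMap_intTrace (L := L), (algebraMap B L).map_mul, hab]
  rw [IsFractionRing.injective A K h1]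
  exact ha

/-- If `Tr(z B) ⊆ p` then `z` is integral at every prime `P` over `p`, and lies in `rad(pB)` there. -/
theorem exists_mul_mem_radical (p : Ideal A) [p.IsMaximal] [CharZero (A ⧸ p)] (P : Ideal B) [hPp : P.IsPrime]
    (hP0 : P ≠ ⊥) (hP : p.map (algebraMap A B) ≤ P) (z : L)
    (hz : ∀ β : B, ∃ a ∈ p, algebraMap A K a = Algebra.trace K L (z * algebraMap B L β)) :
    ∃ d : B, d ∉ P ∧ ∃ γ ∈ (p.map (algebraMap A B)).radical, algebraMap B L γ = z * algebraMap B L d := by
  have hfr : IsFractionRing B L := IsIntegralClosure.isFractionRing_of_finite_extension A K L B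
  let v : HeightOneSpectrum B := ⟨P, hPp, hP0⟩
  obtain ⟨n, d, h | h⟩ := v.exists_primeCompl_mul_eq_or_mul_eq (K := L) z
  · refine ⟨d, d.2, n, ?_, h.symm⟩
    apply mem_radical_map_of_trace_mem (K := K) (L := L) p n
    intro β
    obtain ⟨a, ha, hab⟩ := hz (d * β)
    refine ⟨a, ha, ?_⟩
    rw [hab, ← h, (algebraMap B L).map_mul, mul_assoc]
  · exfalso
    have hd : (d : B) ∈ (p.map (algebraMap A B)).radical := by
      apply mem_radical_map_of_trace_mem (K := K) (L := L) p (d : B)
      intro β
      obtain ⟨a, ha, hab⟩ := hz (n * β)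
      refine ⟨a, ha, ?_⟩
      rw [hab, ← h, (algebraMap B L).map_mul, mul_assoc]
    exact d.2 ((hPp.radical_le_iff.mpr hP) hd)

/-- **Tame bound for the trace dual.** -/
theorem exists_eq_mul_of_mem_traceDual [IsPrincipalIdealRing A]
    (hchar : ∀ p : Ideal A, p.IsMaximal → CharZero (A ⧸ p)) (e : A)
    (hunr : ∀ p : Ideal A, p.IsMaximal → e ∉ p → (p.map (algebraMap A B)).IsRadical)
    (y : L) (hy : ∀ β : B, Algebra.trace K L (y * algebraMap B L β) ∈ (algebraMap A K).range) :
    ∃ z : B, algebraMap B L z = algebraMap A L e * y ∧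
      ∀ p : Ideal A, p.IsMaximal → e ∈ p → z ∈ (p.map (algebraMap A B)).radical := by
  have hfr : IsFractionRing B L := IsIntegralClosure.isFractionRing_of_finite_extension A K L B
  have hinjBL : Function.Injective (algebraMap B L) := IsFractionRing.injective B L
  set z₀ : L := algebraMap A L e * y with hz₀
  -- traces of `t z₀ β`
  have htr : ∀ (t : A) (β : B), ∃ a : A, algebraMap A K (t * e * a)
      = Algebra.trace K L (algebraMap A L t * z₀ * algebraMap B L β) := by
    intro t β
    obtain ⟨a, ha⟩ := hy β
    refine ⟨a, ?_⟩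
    have : algebraMap A L t * z₀ * algebraMap B L β
        = algebraMap A K (t * e) • (y * algebraMap B L β) := by
      rw [hz₀, Algebra.smul_def, ← IsScalarTower.algebraMap_apply, map_mul]; ring
    rw [this, map_smul, ← ha, smul_eq_mul, ← map_mul]
  -- the denominator ideal
  let 𝔟 : Ideal B :=
    { carrier := {β | ∃ γ : B, algebraMap B L γ = z₀ * algebraMap B L β}
      zero_mem' := ⟨0, by simp⟩
      add_mem' := by
        rintro β₁ β₂ ⟨γ₁, h₁⟩ ⟨γ₂, h₂⟩
        exact ⟨γ₁ + γ₂, by rw [map_add, map_add, h₁, h₂]; ring⟩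
      smul_mem' := by
        rintro c β ⟨γ, h⟩
        exact ⟨c * γ, by rw [smul_eq_mul, map_mul, map_mul, h]; ring⟩ }
  have h𝔟 : 𝔟 = ⊤ := by
    by_contra hne
    obtain ⟨P, hPmax, hle⟩ := Ideal.exists_le_maximal 𝔟 hne
    have hPprime : P.IsPrime := hPmax.isPrime
    -- `P ≠ ⊥`
    have hP0 : P ≠ ⊥ := by
      rintro rfl
      obtain ⟨⟨n, d⟩, hnd⟩ := IsLocalization.surj (nonZeroDivisors B) z₀
      have hd : (d : B) ∈ 𝔟 := ⟨n, hnd.symm⟩
      have := hle hd
      rw [Ideal.mem_bot] at this
      exact nonZeroDivisors.coe_ne_zero d this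
    have hint : Algebra.IsIntegral A B := IsIntegralClosure.isIntegral_algebra A L
    set p : Ideal A := P.comap (algebraMap A B) with hp
    have hpmax : p.IsMaximal := Ideal.isMaximal_comap_of_isIntegral_of_isMaximal P
    have hpP : p.map (algebraMap A B) ≤ P := Ideal.map_comap_le
    have := hchar p hpmax
    by_cases hep : e ∈ p
    · obtain ⟨d, hdP, γ, -, hγ⟩ := exists_mul_mem_radical (K := K) (L := L) p P hP0 hpP z₀ (by
        intro β
        obtain ⟨a, ha⟩ := htr 1 β
        refine ⟨1 * e * a, ?_, by rw [ha, map_one, one_mul]⟩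
        rw [one_mul]
        exact p.mul_mem_right _ hep)
      exact hdP (hle ⟨γ, hγ⟩)
    · obtain ⟨t, ht⟩ := IsPrincipalIdealRing.principal p
      have htp : t ∈ p := by rw [ht]; exact Submodule.mem_span_singleton_self t
      have ht0 : t ≠ 0 := by
        rintro rfl
        have hpbot : p = ⊥ := by rw [ht]; simp
        have : P = ⊥ := by
          apply Ideal.eq_bot_of_comap_eq_bot (R := A)
          exact hpbot
        exact hP0 this
      obtain ⟨d, hdP, γ, hγrad, hγ⟩ := exists_mul_mem_radical (K := K) (L := L) p P hP0 hpP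
        (algebraMap A L t * z₀) (by
          intro β
          obtain ⟨a, ha⟩ := htr t β
          refine ⟨t * e * a, ?_, ha⟩
          rw [mul_assoc]
          exact p.mul_mem_right _ htp)
      rw [(hunr p hpmax hep).radical] at hγrad
      have hmap : p.map (algebraMap A B) = Ideal.span {algebraMap A B t} := by
        have hpt : p = Ideal.span {t} := ht
        rw [hpt, Ideal.map_span, Set.image_singleton]
      rw [hmap, Ideal.mem_span_singleton'] at hγrad
      obtain ⟨γ', hγ'⟩ := hγrad
      have htL : algebraMap A L t ≠ 0 := by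
        rw [IsScalarTower.algebraMap_apply A K L]
        simpa using (IsFractionRing.injective A K).ne ht0
      apply hdP
      apply hle
      refine ⟨γ', ?_⟩
      apply mul_left_cancel₀ htL
      rw [← mul_assoc, ← hγ, ← hγ', (algebraMap B L).map_mul, ← IsScalarTower.algebraMap_apply, mul_comm]
  obtain ⟨z, hz⟩ : (1 : B) ∈ 𝔟 := by rw [h𝔟]; trivial
  rw [map_one, mul_one] at hz
  refine ⟨z, hz, fun p hpmax hep => ?_⟩
  have := hchar p hpmax
  apply mem_radical_map_of_trace_mem (K := K) (L := L) p z
  intro β
  obtain ⟨a, ha⟩ := htr 1 β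
  refine ⟨1 * e * a, ?_, by rw [ha, map_one, one_mul, hz]⟩
  rw [one_mul]
  exact p.mul_mem_right _ hep

end Fermat.Agent.Crux.S1
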